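import Fermat.Agent.LT.A2.H38.ArtinSeedSpec
import Fermat.Agent.LT.CFT.H861.FinOrd

/-!
# Row LT, tower A2, branch GALSEED (helper861, OFF-MAIN): `ArtinSeedC` WITHOUT the leaf `FinOrdC`

`artinSeedC_of_ray861 : CFT.ArtinRayC → TotCplxLC → CharRhoC → FrobLC → ArtinSeedC`:
the same proof as `H38.artinSeedC_of_leaves` (helper38), with the pair
(`CFT.HeckeCharC`, `FinOrdC`) replaced by `CFT.ArtinRayC` through
`CFT.H861.heckeChar_finOrd861` (the Hecke character constructed from the ray statement has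
finite order by construction).

Vendored byte-identical: `LT/A2/H38/{ArtinSeedSpec,GalSeedSpec}.lean`, `LT/A2/Spec.lean`
(origin/helper38@e794a5c98), `LT/CFT/Spec.lean` (origin/helper53@aa4e97721).
-/

set_option autoImplicit false

open IsDedekindDomain NumberField AutomorphicForm
open scoped MatrixGroups

noncomputable section

namespace Fermat.Agent.LT.A2.H861

open Fermat.Agent.LT.H130 Fermat.Agent.LT.H556 Fermat.Agent.LT.A2 Fermat.Agent.LT.A2.H38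

local notation "Γℚ" => (AlgebraicClosure ℚ ≃ₐ[ℚ] AlgebraicClosure ℚ)

/-- **ARTINSEED from the ray form of Artin reciprocity**, without `FinOrdC`. -/
theorem artinSeedC_of_ray861 (hA : CFT.ArtinRayC) (hT : TotCplxLC) (hχ : CharRhoC)
    (hL : FrobLC) : ArtinSeedC := by
  intro ρ Ψ hyp hNL
  obtain ⟨χ, hfo, hval⟩ := hχ ρ Ψ hyp
  obtain ⟨θ, hθ, hfin⟩ :=
    CFT.H861.heckeChar_finOrd861 hA (fieldL ρ) (jL ρ) (hT ρ Ψ hyp) χ hfo
  obtain ⟨hcont, htriv, T, hT'⟩ := hθ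
  refine ⟨θ, ⟨hcont, htriv⟩, hfin, ?_⟩
  obtain ⟨S, hS⟩ := hL ρ Ψ hyp T
  refine ⟨S, fun p hp hpS A hA σ hσ w hw => ?_⟩
  obtain ⟨hwT, hfrob⟩ := hS p hp hpS A hA σ hσ w hw
  refine ⟨fun z hz => (hT' w hwT z hz.1).1 hz.2, fun f hf z hz => ?_⟩
  have hmem : ρ (σ ^ f) ∈ C4 := by rw [map_pow]; exact hf.2.1
  have hgal : σ ^ f ∈ CFT.galOf (jL ρ) := mem_galOf_of_mem_C4 ρ _ hmem
  have hfr : CFT.IsFrobAt (jL ρ) w (σ ^ f) := ⟨hgal, A, hw, hfrob f hf⟩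
  have h1 := (hT' w hwT z hz.1).2 hz.2 ⟨σ ^ f, hgal⟩ hfr
  rw [h1, hval ⟨σ ^ f, hgal⟩, map_pow]

end Fermat.Agent.LT.A2.H861

end
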